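import Mathlib.GroupTheory.SpecificGroups.Cyclic
import Mathlib.Algebra.BigOperators.Group.Multiset.Basic
import Mathlib.Order.Lattice.Nat

/-!
# The Davenport constant of a finite abelian group

A multiset of elements of a commutative group is minimal (`IsMin`) if it is not empty, its product
is `1` and no proper non-empty part has product `1`. `davenport G` is the largest cardinality of
such a multiset. We show `davenport G ≤ |G|`, with equality for cyclic groups, and
`davenport G ≤ 2 ↔ |G| ≤ 2`.
-/

set_option autoImplicit false

noncomputable section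

namespace Fermat.Agent.Cor.Carl

variable {G : Type*} [CommGroup G]

/-- A minimal product-one multiset. -/
def IsMin (s : Multiset G) : Prop := s ≠ 0 ∧ s.prod = 1 ∧ ∀ t ≤ s, t ≠ 0 → t.prod = 1 → t = s

theorem isMin_one : IsMin ({1} : Multiset G) := by
  refine ⟨Multiset.singleton_ne_zero _, Multiset.prod_singleton _, fun t ht h0 _ => ?_⟩
  exact (Multiset.le_singleton.mp ht).resolve_left h0

theorem IsMin.eq_of_one_mem {s : Multiset G} (h : IsMin s) (h1 : (1 : G) ∈ s) : s = {1} :=
  (h.2.2 {1} (Multiset.singleton_le.mpr h1) (Multiset.singleton_ne_zero _)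
    (Multiset.prod_singleton _)).symm

theorem IsMin.inv {s : Multiset G} (h : IsMin s) : IsMin (s.map fun x => x⁻¹) := by
  refine ⟨fun h0 => h.1 (Multiset.map_eq_zero.mp h0), ?_, fun t ht h0 h1 => ?_⟩
  · rw [Multiset.prod_map_inv', h.2.1, inv_one]
  · have h2 : (t.map fun x => x⁻¹) = s := by
      refine h.2.2 _ ?_ (fun h3 => h0 (Multiset.map_eq_zero.mp h3)) ?_
      · have h4 := Multiset.map_le_map (f := fun x : G => x⁻¹) ht
        rwa [Multiset.map_map, Multiset.map_congr rfl (fun x _ => by
          rw [Function.comp_apply, inv_inv] : ∀ x ∈ s, ((fun x : G => x⁻¹) ∘ fun x => x⁻¹) x = x),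
          Multiset.map_id'] at h4
      · rw [Multiset.prod_map_inv', h1, inv_one]
    rw [← h2, Multiset.map_map]
    simp

/-- A product-one multiset with at most three elements, all `≠ 1`, is minimal. -/
theorem isMin_of_card_le_three {s : Multiset G} (h0 : s ≠ 0) (hp : s.prod = 1) (h1 : (1 : G) ∉ s)
    (h3 : s.card ≤ 3) : IsMin s := by
  classical
  refine ⟨h0, hp, fun t ht ht0 htp => ?_⟩
  by_contra hne
  have h4 : t + (s - t) = s := add_tsub_cancel_of_le ht
  have h5 : s - t ≠ 0 := fun h => hne (by rw [← h4, h, add_zero])
  have h6 : (s - t).prod = 1 := by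
    have := hp
    rw [← h4, Multiset.prod_add, htp, one_mul] at this
    exact this
  have key : ∀ u : Multiset G, u ≤ s → u.prod = 1 → u.card ≠ 1 := by
    intro u hu hup hu1
    obtain ⟨x, rfl⟩ := Multiset.card_eq_one.mp hu1
    rw [Multiset.prod_singleton] at hup
    exact h1 (hup ▸ Multiset.singleton_le.mp hu)
  have h7 := key t ht htp
  have h8 := key (s - t) (Multiset.sub_le_self s t) h6
  have h9 : t.card + (s - t).card = s.card := by rw [← Multiset.card_add, h4]
  have h10 : 0 < t.card := Multiset.card_pos.mpr ht0
  have h11 : 0 < (s - t).card := Multiset.card_pos.mpr h5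
  omega

/-- `{g, g⁻¹}` is minimal for `g ≠ 1`. -/
theorem isMin_pair {g : G} (hg : g ≠ 1) : IsMin ({g, g⁻¹} : Multiset G) := by
  refine isMin_of_card_le_three (by simp) (by simp) ?_ (by simp)
  simp [eq_comm, hg]

theorem isMin_replicate {g : G} (hg : 0 < orderOf g) :
    IsMin (Multiset.replicate (orderOf g) g) := by
  refine ⟨?_, ?_, fun t ht h0 h1 => ?_⟩
  · intro h
    have := congrArg Multiset.card h
    simp only [Multiset.card_replicate, Multiset.card_zero] at this
    omega
  · rw [Multiset.prod_replicate, pow_orderOf_eq_one]
  · have h2 := Multiset.card_le_card ht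
    rw [Multiset.card_replicate] at h2
    have h3 : t = Multiset.replicate t.card g :=
      Multiset.eq_replicate_card.mpr fun b hb =>
        Multiset.eq_of_mem_replicate (Multiset.mem_of_le ht hb)
    rw [h3, Multiset.prod_replicate] at h1
    have h4 : 0 < t.card := Multiset.card_pos.mpr h0
    have h5 : orderOf g = t.card := le_antisymm (orderOf_le_of_pow_eq_one h4 h1) h2
    rw [h5]
    exact h3

/-- The partial products of a minimal product-one sequence are different. -/
theorem IsMin.card_le [Finite G] {s : Multiset G} (h : IsMin s) : s.card ≤ Nat.card G := by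
  obtain ⟨l, rfl⟩ := Quot.exists_rep s
  change IsMin (l : Multiset G) at h
  change Multiset.card (l : Multiset G) ≤ _
  have key : ∀ i j : ℕ, i < j → j < l.length → (l.take i).prod ≠ (l.take j).prod := by
    intro i j hij hj he
    have h1 : (l.take j).prod = (l.take i).prod * ((l.take j).drop i).prod := by
      have h2 : l.take i = (l.take j).take i := by
        rw [List.take_take, min_eq_left hij.le]
      rw [h2, List.prod_take_mul_prod_drop]
    have h2 : ((l.take j).drop i).prod = 1 := by
      rw [← he] at h1
      exact (mul_eq_left.mp h1.symm)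
    have h3 : ((l.take j).drop i).length = j - i := by
      rw [List.length_drop, List.length_take, min_eq_left hj.le]
    have h4 : (((l.take j).drop i : List G) : Multiset G) ≤ (l : Multiset G) :=
      Multiset.coe_le.mpr (((List.drop_sublist _ _).trans (List.take_sublist _ _)).subperm)
    have h5 : (((l.take j).drop i : List G) : Multiset G) ≠ 0 := by
      intro h0
      have := congrArg Multiset.card h0
      rw [Multiset.coe_card, h3, Multiset.card_zero] at this
      omega
    have h6 := h.2.2 _ h4 h5 (by rw [Multiset.prod_coe, h2])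
    have h7 := congrArg Multiset.card h6
    rw [Multiset.coe_card, Multiset.coe_card, h3] at h7
    omega
  have hinj : Function.Injective fun i : Fin l.length => (l.take i).prod := by
    intro i j hij
    rcases lt_trichotomy (i : ℕ) j with h1 | h1 | h1
    · exact absurd hij (key i j h1 j.2)
    · exact Fin.ext h1
    · exact absurd hij.symm (key j i h1 i.2)
  have h8 := Nat.card_le_card_of_injective _ hinj
  rwa [Nat.card_fin] at h8

variable (G) in
/-- The **Davenport constant**: the largest number of elements of a minimal product-one
multiset. -/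
def davenport : ℕ := sSup {n | ∃ s : Multiset G, IsMin s ∧ s.card = n}

section Finite

variable [Finite G]

theorem bddAbove_card : BddAbove {n | ∃ s : Multiset G, IsMin s ∧ s.card = n} :=
  ⟨Nat.card G, by
    rintro n ⟨s, hs, rfl⟩
    exact hs.card_le⟩

theorem IsMin.card_le_davenport {s : Multiset G} (h : IsMin s) : s.card ≤ davenport G :=
  le_csSup bddAbove_card ⟨s, h, rfl⟩

variable (G)

theorem exists_card_eq_davenport : ∃ s : Multiset G, IsMin s ∧ s.card = davenport G :=
  Nat.sSup_mem (s := {n | ∃ s : Multiset G, IsMin s ∧ s.card = n}) ⟨1, {1}, isMin_one, rfl⟩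
    bddAbove_card

theorem davenport_le_card : davenport G ≤ Nat.card G := by
  obtain ⟨s, hs, h⟩ := exists_card_eq_davenport G
  rw [← h]
  exact hs.card_le

theorem davenport_of_isCyclic [IsCyclic G] : davenport G = Nat.card G := by
  refine le_antisymm (davenport_le_card G) ?_
  obtain ⟨g, hg⟩ := IsCyclic.exists_generator (α := G)
  have h1 := orderOf_eq_card_of_forall_mem_zpowers hg
  have h2 := (isMin_replicate (g := g) (h1 ▸ Nat.card_pos)).card_le_davenport
  rwa [Multiset.card_replicate, h1] at h2

theorem two_le_davenport (h : 2 ≤ Nat.card G) : 2 ≤ davenport G := by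
  have : Nontrivial G := Finite.one_lt_card_iff_nontrivial.mp h
  obtain ⟨g, hg⟩ := exists_ne (1 : G)
  exact (isMin_pair hg).card_le_davenport

theorem three_le_davenport (h : 3 ≤ Nat.card G) : 3 ≤ davenport G := by
  classical
  by_cases h2 : ∃ g : G, 3 ≤ orderOf g
  · obtain ⟨g, hg⟩ := h2
    have h3 := (isMin_replicate (g := g) (by omega)).card_le_davenport
    rw [Multiset.card_replicate] at h3
    omega
  · push Not at h2
    have hsq : ∀ g : G, g * g = 1 := by
      intro g
      have h3 := orderOf_pos g
      have h4 := h2 g
      have h5 : orderOf g ∣ 2 := by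
        have h6 : orderOf g = 1 ∨ orderOf g = 2 := by omega
        rcases h6 with h6 | h6
        · rw [h6]
          exact one_dvd 2
        · rw [h6]
      rw [← pow_two]
      exact orderOf_dvd_iff_pow_eq_one.mp h5
    have := Fintype.ofFinite G
    rw [Nat.card_eq_fintype_card] at h
    obtain ⟨a, ha⟩ : ∃ a : G, a ≠ 1 := by
      have : Nontrivial G := Fintype.one_lt_card_iff_nontrivial.mp (by omega)
      exact exists_ne _
    obtain ⟨b, hb⟩ : ∃ b : G, b ∉ ({1, a} : Finset G) := by
      by_contra hc
      push Not at hc
      have h3 : (Finset.univ : Finset G) ⊆ {1, a} := fun x _ => hc x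
      have h4 := Finset.card_le_card h3
      have h5 := Finset.card_le_two (a := (1 : G)) (b := a)
      rw [Finset.card_univ] at h4
      omega
    simp only [Finset.mem_insert, Finset.mem_singleton, not_or] at hb
    have h3 : IsMin ({a, b, a * b} : Multiset G) := by
      refine isMin_of_card_le_three (by simp) ?_ ?_ (by simp)
      · have : a * (b * (a * b)) = (a * a) * (b * b) := by
          rw [mul_left_comm b a b, mul_assoc a a]
        simp only [Multiset.insert_eq_cons, Multiset.prod_cons, Multiset.prod_singleton]
        rw [this, hsq, hsq, one_mul]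
      · simp only [Multiset.insert_eq_cons, Multiset.mem_cons, Multiset.mem_singleton, not_or]
        refine ⟨ha.symm, Ne.symm hb.1, fun h => hb.2 ?_⟩
        have h4 : a * b = a * a := by rw [← h, hsq]
        exact mul_left_cancel h4
    exact h3.card_le_davenport

theorem davenport_le_two_iff : davenport G ≤ 2 ↔ Nat.card G ≤ 2 := by
  refine ⟨fun h => ?_, fun h => (davenport_le_card G).trans h⟩
  by_contra h'
  have := three_le_davenport G (by omega)
  omega

end Finite

end Fermat.Agent.Cor.Carl
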