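import Mathlib.RingTheory.ClassGroup.Basic
import Mathlib.RingTheory.DedekindDomain.Ideal.Lemmas
import Fermat.Agent.Corollaries.Carlitz.Davenport

/-!
# Factorizations into irreducible elements in a Dedekind domain

* `irreducible_iff`: `a ≠ 0` is irreducible if and only if the classes of the prime ideals of `a`
  form a minimal product-one multiset;
* `two_mul_card_le`: for two factorizations of the same element,
  `2 · (number of factors) ≤ max(2, D) · (number of factors)`;
* `exists_factorizations`: if every class contains a prime ideal this is sharp.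
-/

set_option autoImplicit false

noncomputable section

open UniqueFactorizationMonoid Ideal

namespace Fermat.Agent.Cor.Carl

variable {R : Type*} [CommRing R] [IsDedekindDomain R]

open Classical in
/-- The class of an ideal (`1` for the zero ideal). -/
def cl (I : Ideal R) : ClassGroup R :=
  if h : I = ⊥ then 1 else ClassGroup.mk0 ⟨I, mem_nonZeroDivisors_of_ne_zero h⟩

theorem cl_of_ne {I : Ideal R} (h : I ≠ ⊥) :
    cl I = ClassGroup.mk0 ⟨I, mem_nonZeroDivisors_of_ne_zero h⟩ := dif_neg h

theorem cl_eq_one_iff {I : Ideal R} (hI : I ≠ ⊥) : cl I = 1 ↔ ∃ a : R, I = span {a} := by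
  rw [cl_of_ne hI, ClassGroup.mk0_eq_one_iff]
  constructor
  · intro h
    obtain ⟨a, ha⟩ := h.principal
    exact ⟨a, ha⟩
  · rintro ⟨a, ha⟩
    exact ⟨⟨a, ha⟩⟩

theorem cl_mul {I J : Ideal R} (hI : I ≠ ⊥) (hJ : J ≠ ⊥) : cl (I * J) = cl I * cl J := by
  have hIJ : I * J ≠ ⊥ := mul_ne_zero hI hJ
  rw [cl_of_ne hI, cl_of_ne hJ, cl_of_ne hIJ, ← map_mul]
  rfl

theorem cl_top : cl (⊤ : Ideal R) = 1 :=
  (cl_eq_one_iff (by rw [← Ideal.one_eq_top]; exact one_ne_zero)).mpr
    ⟨1, (Ideal.span_singleton_one).symm⟩

theorem cl_prod {s : Multiset (Ideal R)} (hs : (⊥ : Ideal R) ∉ s) :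
    cl s.prod = (s.map cl).prod := by
  induction s using Multiset.induction_on with
  | empty => simp [cl_top, Ideal.one_eq_top]
  | cons I s ih =>
    rw [Multiset.mem_cons, not_or] at hs
    rw [Multiset.prod_cons, Multiset.map_cons, Multiset.prod_cons,
      cl_mul (Ne.symm hs.1) (Multiset.prod_ne_zero hs.2), ih hs.2]

theorem cl_span {a : R} (ha : a ≠ 0) : cl (span {a}) = 1 :=
  (cl_eq_one_iff (by rwa [Ne, span_singleton_eq_bot])).mpr ⟨a, rfl⟩

/-- The prime ideals of an element. -/
def F (a : R) : Multiset (Ideal R) := normalizedFactors (span {a})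

omit [IsDedekindDomain R] in
theorem span_ne {a : R} (ha : a ≠ 0) : span {a} ≠ (⊥ : Ideal R) := by
  rwa [Ne, span_singleton_eq_bot]

theorem prod_F {a : R} (ha : a ≠ 0) : (F a).prod = span {a} :=
  Ideal.prod_normalizedFactors_eq_self (span_ne ha)

theorem prime_of_mem_F {a : R} {P : Ideal R} (h : P ∈ F a) : Prime P :=
  prime_of_normalized_factor P h

theorem bot_notMem {a : R} {u : Multiset (Ideal R)} (hu : u ≤ F a) : (⊥ : Ideal R) ∉ u := fun h =>
  (prime_of_mem_F (Multiset.mem_of_le hu h)).ne_zero rfl

theorem F_eq_of_span {a : R} {u : Multiset (Ideal R)} (hu : ∀ P ∈ u, Prime P)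
    (h : span {a} = u.prod) : F a = u := by
  rw [F, h, normalizedFactors_prod_of_prime hu]

theorem F_mul {a b : R} (ha : a ≠ 0) (hb : b ≠ 0) : F (a * b) = F a + F b := by
  rw [F, ← span_singleton_mul_span_singleton, normalizedFactors_mul (span_ne ha) (span_ne hb)]
  rfl

theorem F_eq_zero_iff {a : R} (ha : a ≠ 0) : F a = 0 ↔ IsUnit a := by
  rw [← Ideal.span_singleton_eq_top]
  constructor
  · intro h
    rw [← prod_F ha, h, Multiset.prod_zero, Ideal.one_eq_top]
  · intro h
    rw [F, h, ← Ideal.one_eq_top, normalizedFactors_one]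

theorem F_associated {a b : R} (h : Associated a b) : F a = F b := by
  rw [F, F, Ideal.span_singleton_eq_span_singleton.mpr h]

theorem prod_map_cl_F {a : R} (ha : a ≠ 0) : ((F a).map cl).prod = 1 := by
  rw [← cl_prod (bot_notMem le_rfl), prod_F ha, cl_span ha]

/-- A part of the image of a multiset is the image of a part. -/
theorem exists_le_map {α β : Type*} {f : α → β} {s : Multiset α} {t : Multiset β}
    (h : t ≤ s.map f) : ∃ u ≤ s, u.map f = t := by
  obtain ⟨l, rfl⟩ := Quot.exists_rep s
  obtain ⟨m, rfl⟩ := Quot.exists_rep t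
  change ((m : Multiset β)) ≤ Multiset.map f (l : Multiset α) at h
  rw [Multiset.map_coe, Multiset.coe_le] at h
  obtain ⟨m', hm, hs⟩ := h
  obtain ⟨u, hu, rfl⟩ := List.sublist_map_iff.mp hs
  refine ⟨(u : Multiset α), Multiset.coe_le.mpr hu.subperm, ?_⟩
  rw [Multiset.map_coe]
  exact Quot.sound hm

/-- **Irreducible elements**: the classes of the prime ideals form a minimal product-one
multiset. -/
theorem irreducible_iff {a : R} (ha : a ≠ 0) : Irreducible a ↔ IsMin ((F a).map cl) := by
  classical
  constructor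
  · intro h
    refine ⟨fun h0 => h.not_isUnit ((F_eq_zero_iff ha).mp (Multiset.map_eq_zero.mp h0)),
      prod_map_cl_F ha, fun t ht h0 h1 => ?_⟩
    obtain ⟨u, hu, rfl⟩ := exists_le_map ht
    have hu0 : u.prod ≠ ⊥ := Multiset.prod_ne_zero (bot_notMem hu)
    obtain ⟨b, hb⟩ := (cl_eq_one_iff hu0).mp (by rw [cl_prod (bot_notMem hu), h1])
    set v := F a - u with hv
    have huv : u + v = F a := add_tsub_cancel_of_le hu
    have hvle : v ≤ F a := Multiset.sub_le_self _ _
    have hv0 : v.prod ≠ ⊥ := Multiset.prod_ne_zero (bot_notMem hvle)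
    have hv1 : (v.map cl).prod = 1 := by
      have h2 := prod_map_cl_F ha
      rwa [← huv, Multiset.map_add, Multiset.prod_add, h1, one_mul] at h2
    obtain ⟨c, hc⟩ := (cl_eq_one_iff hv0).mp (by rw [cl_prod (bot_notMem hvle), hv1])
    have hab : Associated a (b * c) := by
      rw [← Ideal.span_singleton_eq_span_singleton, ← span_singleton_mul_span_singleton, ← hb,
        ← hc, ← Multiset.prod_add, huv, prod_F ha]
    have hirr : Irreducible (b * c) := hab.irreducible h
    rcases hirr.isUnit_or_isUnit rfl with h3 | h3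
    · exfalso
      apply h0
      have h4 : F b = 0 := by
        refine (F_eq_zero_iff ?_).mpr h3
        rintro rfl
        exact hirr.ne_zero (zero_mul c)
      rw [F_eq_of_span (fun P hP => prime_of_mem_F (Multiset.mem_of_le hu hP)) hb.symm] at h4
      rw [h4, Multiset.map_zero]
    · have h4 : F c = 0 := by
        refine (F_eq_zero_iff ?_).mpr h3
        rintro rfl
        exact hirr.ne_zero (mul_zero b)
      rw [F_eq_of_span (fun P hP => prime_of_mem_F (Multiset.mem_of_le hvle hP)) hc.symm] at h4
      rw [← huv, h4, add_zero]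
  · intro h
    refine ⟨fun hu => h.1 (by rw [(F_eq_zero_iff ha).mpr hu, Multiset.map_zero]), ?_⟩
    rintro b c rfl
    have hb : b ≠ 0 := left_ne_zero_of_mul ha
    have hc : c ≠ 0 := right_ne_zero_of_mul ha
    by_contra hn
    rw [not_or] at hn
    have h1 := h.2.2 ((F b).map cl)
      (Multiset.map_le_map (by rw [F_mul hb hc]; exact Multiset.le_add_right _ _))
      (fun h0 => hn.1 ((F_eq_zero_iff hb).mp (Multiset.map_eq_zero.mp h0))) (prod_map_cl_F hb)
    have h2 := congrArg Multiset.card h1
    rw [Multiset.card_map, Multiset.card_map, F_mul hb hc, Multiset.card_add] at h2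
    have h3 : F c = 0 := Multiset.card_eq_zero.mp (by omega)
    exact hn.2 ((F_eq_zero_iff hc).mp h3)

open Classical in
/-- The weight of a prime ideal: `2` if it is principal, `1` otherwise. -/
def wt (P : Ideal R) : ℕ := if cl P = 1 then 2 else 1

/-- The weight of an element. -/
def W (a : R) : ℕ := ((F a).map wt).sum

theorem W_prod {s : Multiset R} (hs : (0 : R) ∉ s) : W s.prod = (s.map W).sum := by
  induction s using Multiset.induction_on with
  | empty =>
    have : F (1 : R) = 0 := (F_eq_zero_iff one_ne_zero).mpr isUnit_one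
    simp [W, this]
  | cons a s ih =>
    rw [Multiset.mem_cons, not_or] at hs
    rw [Multiset.prod_cons, Multiset.map_cons, Multiset.sum_cons, ← ih hs.2, W,
      F_mul (Ne.symm hs.1) (Multiset.prod_ne_zero hs.2), Multiset.map_add, Multiset.sum_add]
    rfl

theorem W_associated {a b : R} (h : Associated a b) : W a = W b := by
  rw [W, W, F_associated h]

/-- The weight of an irreducible element is between `2` and `max(2, D)`. -/
theorem W_irreducible {a : R} (h : Irreducible a) {D : ℕ}
    (hD : ∀ s : Multiset (ClassGroup R), IsMin s → s.card ≤ D) : 2 ≤ W a ∧ W a ≤ max 2 D := by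
  have hm := (irreducible_iff h.ne_zero).mp h
  by_cases hp : ∃ P ∈ F a, cl P = 1
  · obtain ⟨P, hP, h1⟩ := hp
    have h2 : (1 : ClassGroup R) ∈ (F a).map cl := by
      rw [← h1]
      exact Multiset.mem_map_of_mem cl hP
    have h3 := congrArg Multiset.card (hm.eq_of_one_mem h2)
    rw [Multiset.card_map, Multiset.card_singleton] at h3
    obtain ⟨Q, hQ⟩ := Multiset.card_eq_one.mp h3
    have h4 : P = Q := by
      rw [hQ] at hP
      exact Multiset.mem_singleton.mp hP
    have h5 : W a = 2 := by
      rw [W, hQ, Multiset.map_singleton, Multiset.sum_singleton, ← h4, wt, if_pos h1]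
    rw [h5]
    exact ⟨le_rfl, le_max_left _ _⟩
  · push Not at hp
    have h1 : W a = (F a).card := by
      have h5 : (F a).map wt = (F a).map fun _ => 1 :=
        Multiset.map_congr rfl fun P hP => if_neg (hp P hP)
      rw [W, h5, Multiset.map_const', Multiset.sum_replicate, smul_eq_mul, mul_one]
    have h2 : (F a).card ≤ D := by
      rw [← Multiset.card_map cl]
      exact hD _ hm
    have h3 : (F a).card ≠ 0 := fun h0 =>
      hm.1 (by rw [Multiset.card_eq_zero.mp h0, Multiset.map_zero])
    have h4 : (F a).card ≠ 1 := by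
      intro h0
      obtain ⟨Q, hQ⟩ := Multiset.card_eq_one.mp h0
      have h5 := hm.2.1
      rw [hQ, Multiset.map_singleton, Multiset.prod_singleton] at h5
      exact hp Q (by rw [hQ]; exact Multiset.mem_singleton_self Q) h5
    rw [h1]
    exact ⟨by omega, h2.trans (le_max_right _ _)⟩

/-- **Upper bound** for the quotient of the numbers of factors. -/
theorem two_mul_card_le {D : ℕ} (hD : ∀ s : Multiset (ClassGroup R), IsMin s → s.card ≤ D)
    {s t : Multiset R} (hs : ∀ a ∈ s, Irreducible a) (ht : ∀ a ∈ t, Irreducible a)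
    (h : Associated s.prod t.prod) : 2 * s.card ≤ max 2 D * t.card := by
  have hs0 : (0 : R) ∉ s := fun h0 => (hs 0 h0).ne_zero rfl
  have ht0 : (0 : R) ∉ t := fun h0 => (ht 0 h0).ne_zero rfl
  have h1 : 2 * s.card ≤ (s.map W).sum := by
    have := Multiset.card_nsmul_le_sum (s := s.map W) (a := 2) (by
      intro x hx
      obtain ⟨a, ha, rfl⟩ := Multiset.mem_map.mp hx
      exact (W_irreducible (hs a ha) hD).1)
    rw [Multiset.card_map, smul_eq_mul] at this
    omega
  have h2 : (t.map W).sum ≤ max 2 D * t.card := by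
    have := Multiset.sum_le_card_nsmul (t.map W) (max 2 D) (by
      intro x hx
      obtain ⟨a, ha, rfl⟩ := Multiset.mem_map.mp hx
      exact (W_irreducible (ht a ha) hD).2)
    rw [Multiset.card_map, smul_eq_mul] at this
    rwa [mul_comm]
  rw [← W_prod ht0, ← W_associated h, W_prod hs0] at h2
  exact h1.trans h2

/-- If every class contains a prime ideal, every product-one multiset of classes is the multiset
of the classes of the prime ideals of an element. -/
theorem exists_classes' {pr : ClassGroup R → Ideal R} (hp : ∀ C, Prime (pr C))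
    (hcl : ∀ C, cl (pr C) = C) {u : Multiset (ClassGroup R)} (hu : u.prod = 1) :
    ∃ a : R, a ≠ 0 ∧ span {a} = (u.map pr).prod ∧ (F a).map cl = u := by
  have hpu : ∀ P ∈ u.map pr, Prime P := by
    intro P hP
    obtain ⟨C, _, rfl⟩ := Multiset.mem_map.mp hP
    exact hp C
  have hbot : (⊥ : Ideal R) ∉ u.map pr := fun h => (hpu _ h).ne_zero rfl
  have hmap : (u.map pr).map cl = u := by
    have h3 : u.map (cl ∘ pr) = u.map fun C => C := Multiset.map_congr rfl fun C _ => hcl C
    rw [Multiset.map_map, h3, Multiset.map_id']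
  have h0 : (u.map pr).prod ≠ ⊥ := Multiset.prod_ne_zero hbot
  obtain ⟨a, ha⟩ := (cl_eq_one_iff h0).mp (by rw [cl_prod hbot, hmap, hu])
  refine ⟨a, ?_, ha.symm, ?_⟩
  · rintro rfl
    exact h0 (by rw [ha, span_singleton_eq_bot])
  · rw [F_eq_of_span hpu ha.symm, hmap]

theorem exists_classes (hcls : ∀ C : ClassGroup R, ∃ P : Ideal R, Prime P ∧ cl P = C)
    {u : Multiset (ClassGroup R)} (hu : u.prod = 1) : ∃ a : R, a ≠ 0 ∧ (F a).map cl = u := by
  choose pr hp hcl using hcls
  obtain ⟨a, ha, _, h⟩ := exists_classes' hp hcl hu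
  exact ⟨a, ha, h⟩

/-- **Sharpness**: if every class contains a prime ideal, a minimal product-one multiset with
`n ≥ 2` elements gives an element with a factorization into two and a factorization into `n`
irreducible elements. -/
theorem exists_factorizations (hcls : ∀ C : ClassGroup R, ∃ P : Ideal R, Prime P ∧ cl P = C)
    {g : Multiset (ClassGroup R)} (hg : IsMin g) (h2 : 2 ≤ g.card) :
    ∃ s t : Multiset R, (∀ a ∈ s, Irreducible a) ∧ (∀ a ∈ t, Irreducible a) ∧
      Associated s.prod t.prod ∧ s.card = 2 ∧ t.card = g.card := by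
  choose pr hp hcl using hcls
  have hg1 : ∀ x ∈ g, x ≠ 1 := by
    rintro x hx rfl
    have := congrArg Multiset.card (hg.eq_of_one_mem hx)
    rw [Multiset.card_singleton] at this
    omega
  obtain ⟨a, ha0, ha1, ha2⟩ := exists_classes' hp hcl hg.2.1
  obtain ⟨b, hb0, hb1, hb2⟩ := exists_classes' hp hcl hg.inv.2.1
  have hc : ∀ x : ClassGroup R, ∃ c : R, c ≠ 0 ∧ span {c} = pr x * pr x⁻¹ ∧
      (F c).map cl = {x, x⁻¹} := by
    intro x
    obtain ⟨c, hc0, hc1, hc2⟩ := exists_classes' hp hcl (u := {x, x⁻¹}) (by simp)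
    exact ⟨c, hc0, by simpa using hc1, hc2⟩
  choose c hc0 hc1 hc2 using hc
  refine ⟨{a, b}, g.map c, ?_, ?_, ?_, by simp, by simp⟩
  · intro y hy
    simp only [Multiset.insert_eq_cons, Multiset.mem_cons, Multiset.mem_singleton] at hy
    rcases hy with rfl | rfl
    · rw [irreducible_iff ha0, ha2]
      exact hg
    · rw [irreducible_iff hb0, hb2]
      exact hg.inv
  · intro y hy
    obtain ⟨x, hx, rfl⟩ := Multiset.mem_map.mp hy
    rw [irreducible_iff (hc0 x), hc2]
    exact isMin_pair (hg1 x hx)
  · have h3 : span {(g.map c).prod} = (g.map fun x => pr x * pr x⁻¹).prod := by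
      rw [← Ideal.multiset_prod_span_singleton, Multiset.map_map]
      congr 1
      exact Multiset.map_congr rfl fun x _ => hc1 x
    rw [← Ideal.span_singleton_eq_span_singleton, h3, Multiset.prod_map_mul]
    simp only [Multiset.insert_eq_cons, Multiset.prod_cons, Multiset.prod_singleton]
    rw [← span_singleton_mul_span_singleton, ha1, hb1, Multiset.map_map]
    rfl

end Fermat.Agent.Cor.Carl
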