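import Fermat.Agent.Corollaries.Carlitz.Basic
import Fermat.Agent.Corollaries.ZetaK.DegOne

/-!
# Carlitz's theorem and the elasticity of the ring of integers of a number field

`K` a number field, `h` its class number, `D` the Davenport constant of the class group.

* `carlitz` (Carlitz 1960): `h ≤ 2` if and only if any two factorizations of the same integer of
  `K` into irreducible elements have the same number of factors;
* `elasticity` (Valenza, Steffan, Narkiewicz 1990, 1995): for `h ≥ 2` the largest quotient of the
  numbers of factors of two factorizations of the same integer is `D / 2`.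
-/

set_option autoImplicit false

noncomputable section

open NumberField

namespace Fermat.Agent.Cor.Carl

section Units

variable {R : Type*} [CommRing R]

/-- Associated products: change one factor by a unit. -/
theorem exists_prod_eq {s t : Multiset R} (hs0 : s ≠ 0) (hs : ∀ a ∈ s, Irreducible a)
    (h : Associated s.prod t.prod) : ∃ s' : Multiset R, (∀ a ∈ s', Irreducible a) ∧
      s'.card = s.card ∧ s'.prod = t.prod := by
  obtain ⟨a, ha⟩ := Multiset.exists_mem_of_ne_zero hs0
  obtain ⟨s₁, rfl⟩ := Multiset.exists_cons_of_mem ha
  obtain ⟨u, hu⟩ := h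
  refine ⟨(a * u) ::ₘ s₁, ?_, by simp, ?_⟩
  · intro b hb
    rcases Multiset.mem_cons.mp hb with rfl | hb
    · exact (irreducible_mul_units u).mpr (hs a (Multiset.mem_cons_self a s₁))
    · exact hs b (Multiset.mem_cons_of_mem hb)
  · rw [Multiset.prod_cons] at hu ⊢
    rw [← hu]
    ring

end Units

variable (K : Type*) [Field K] [NumberField K]

theorem exists_prime_class (C : ClassGroup (𝓞 K)) : ∃ P : Ideal (𝓞 K), Prime P ∧ cl P = C := by
  obtain ⟨v, hv⟩ := (infinite_places_in_class C).nonempty
  exact ⟨v.asIdeal, v.prime, by rw [cl_of_ne v.ne_bot]; exact hv⟩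

theorem natCard_classGroup : Nat.card (ClassGroup (𝓞 K)) = classNumber K :=
  Nat.card_eq_fintype_card

variable {K}

/-- For two factorizations of the same element: `2 n ≤ max(2, D) m`. -/
theorem two_mul_card_le_davenport {s t : Multiset (𝓞 K)} (hs : ∀ a ∈ s, Irreducible a)
    (ht : ∀ a ∈ t, Irreducible a) (h : Associated s.prod t.prod) :
    2 * s.card ≤ max 2 (davenport (ClassGroup (𝓞 K))) * t.card :=
  two_mul_card_le (fun _ h => h.card_le_davenport) hs ht h

variable (K)

/-- There is an element with a factorization into two and a factorization into `D` irreducible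
elements. -/
theorem exists_two_davenport (h : 2 ≤ classNumber K) : ∃ s t : Multiset (𝓞 K),
    (∀ a ∈ s, Irreducible a) ∧ (∀ a ∈ t, Irreducible a) ∧ s.prod = t.prod ∧ s.card = 2 ∧
      t.card = davenport (ClassGroup (𝓞 K)) := by
  obtain ⟨g, hg, hD⟩ := exists_card_eq_davenport (ClassGroup (𝓞 K))
  have h2 := two_le_davenport (ClassGroup (𝓞 K)) (by rwa [natCard_classGroup])
  obtain ⟨s, t, hs, ht, hst, h3, h4⟩ := exists_factorizations (exists_prime_class K) hg
    (by rw [hD]; exact h2)
  obtain ⟨s', hs', h5, h6⟩ := exists_prod_eq (by rintro rfl; simp at h3) hs hst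
  exact ⟨s', t, hs', ht, h6, h5.trans h3, h4.trans hD⟩

/-- **Carlitz's theorem** (1960): the class number of a number field is at most two if and only if
any two factorizations of the same integer into irreducible elements have the same number of
factors. -/
theorem carlitz : classNumber K ≤ 2 ↔ ∀ s t : Multiset (𝓞 K), (∀ a ∈ s, Irreducible a) →
    (∀ a ∈ t, Irreducible a) → s.prod = t.prod → s.card = t.card := by
  constructor
  · intro h s t hs ht hst
    have h1 : max 2 (davenport (ClassGroup (𝓞 K))) = 2 :=
      max_eq_left ((davenport_le_card _).trans (by rwa [natCard_classGroup]))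
    have h2 := two_mul_card_le_davenport hs ht (hst ▸ Associated.refl _)
    have h3 := two_mul_card_le_davenport ht hs (hst ▸ Associated.refl _)
    rw [h1] at h2 h3
    omega
  · intro h
    by_contra hn
    obtain ⟨s, t, hs, ht, hst, h1, h2⟩ := exists_two_davenport K (by omega)
    have h3 := three_le_davenport (ClassGroup (𝓞 K)) (by rw [natCard_classGroup]; omega)
    have h4 := h s t hs ht hst
    omega

/-- The quotients of the numbers of factors of two factorizations of the same integer. -/
def lengthRatios : Set ℚ := {r | ∃ s t : Multiset (𝓞 K), s ≠ 0 ∧ (∀ a ∈ s, Irreducible a) ∧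
  (∀ a ∈ t, Irreducible a) ∧ s.prod = t.prod ∧ r = (t.card : ℚ) / s.card}

/-- **The elasticity of the ring of integers** is half of the Davenport constant of the class
group (`h ≥ 2`). -/
theorem elasticity (h : 2 ≤ classNumber K) :
    IsGreatest (lengthRatios K) ((davenport (ClassGroup (𝓞 K)) : ℚ) / 2) := by
  have h2 := two_le_davenport (ClassGroup (𝓞 K)) (by rwa [natCard_classGroup])
  constructor
  · obtain ⟨s, t, hs, ht, hst, h3, h4⟩ := exists_two_davenport K h
    refine ⟨s, t, by rintro rfl; simp at h3, hs, ht, hst, ?_⟩
    rw [h3, h4]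
    norm_num
  · rintro r ⟨s, t, h0, hs, ht, hst, rfl⟩
    have h3 := two_mul_card_le_davenport ht hs (hst ▸ Associated.refl _)
    rw [max_eq_right h2] at h3
    have h4 : 0 < s.card := Multiset.card_pos.mpr h0
    rw [div_le_div_iff₀ (by exact_mod_cast h4) two_pos]
    have h5 : t.card * 2 ≤ davenport (ClassGroup (𝓞 K)) * s.card := by omega
    exact_mod_cast h5

open UniqueFactorizationMonoid in
/-- **The Davenport constant of the class group** is the largest number of prime ideals (with
multiplicity) of an irreducible element. -/
theorem isGreatest_card_primes : IsGreatest {n : ℕ | ∃ a : 𝓞 K, Irreducible a ∧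
    (normalizedFactors (Ideal.span {a})).card = n} (davenport (ClassGroup (𝓞 K))) := by
  constructor
  · obtain ⟨g, hg, hD⟩ := exists_card_eq_davenport (ClassGroup (𝓞 K))
    obtain ⟨a, ha0, ha⟩ := exists_classes (exists_prime_class K) hg.2.1
    refine ⟨a, (irreducible_iff ha0).mpr (by rwa [ha]), ?_⟩
    rw [← hD, ← ha, Multiset.card_map]
    rfl
  · rintro n ⟨a, ha, rfl⟩
    have h1 := ((irreducible_iff ha.ne_zero).mp ha).card_le_davenport
    rwa [Multiset.card_map] at h1

/-- For a cyclic class group the elasticity is `h / 2`. -/
theorem elasticity_of_isCyclic [IsCyclic (ClassGroup (𝓞 K))] (h : 2 ≤ classNumber K) :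
    IsGreatest (lengthRatios K) ((classNumber K : ℚ) / 2) := by
  have := elasticity K h
  rwa [davenport_of_isCyclic, natCard_classGroup] at this

/-- The elasticity is at most `h / 2`. -/
theorem le_of_mem_lengthRatios (h : 2 ≤ classNumber K) {r : ℚ} (hr : r ∈ lengthRatios K) :
    r ≤ (classNumber K : ℚ) / 2 := by
  have h1 := (elasticity K h).2 hr
  have h2 := davenport_le_card (ClassGroup (𝓞 K))
  rw [natCard_classGroup] at h2
  have h3 : (davenport (ClassGroup (𝓞 K)) : ℚ) ≤ classNumber K := by exact_mod_cast h2
  linarith

end Fermat.Agent.Cor.Carl
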